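import Mathlib
import Fermat.Prelude.Def_GaloisRep_CompletionBridge
import Fermat.Agent.CFT.Local.Instantiate

/-!
# S56 sprint, block FLAT-BRIDGE (FB3): integrality and rationality of points, splitting field

`H` an integral (e.g. finite) `ℤ_p`-algebra.  A `ℚ̄_p`-point of `H` has integral values; a point
fixed by `Gal(ℚ̄_p/E)` has values in `E`, hence in the ring of integers
`PadicTower.intRing p E = integralClosure ℤ_p E` (the Layer-B vocabulary of `CFT/Local`); and the
field `pointsField p H = ℚ_p(values of all points)` is a finite Galois extension of `ℚ_p` whose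
fixing subgroup is the kernel of the Galois action on points.

Branch-only work.
-/

set_option autoImplicit false
set_option linter.style.haveILetI false
set_option linter.unusedSectionVars false

namespace Fermat.Agent.TW.FlatBridge

open Fermat.Agent.CFT.PadicTower Fermat.Agent.CFT.Tower Polynomial
open scoped NNReal

variable (p : ℕ) [Fact p.Prime]

/-! ### Integral elements of `ℚ̄_p` have norm `≤ 1` -/

theorem nnnorm_algebraMap_padicInt_le_one (a : ℤ_[p]) :
    ‖algebraMap ℤ_[p] (PadicAlgCl p) a‖₊ ≤ 1 := by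
  rw [← NNReal.coe_le_coe, coe_nnnorm, IsScalarTower.algebraMap_apply ℤ_[p] ℚ_[p] (PadicAlgCl p),
    PadicAlgCl.norm_extends]
  exact PadicInt.norm_le_one a

theorem mem_padicIntegers_of_isIntegral {x : PadicAlgCl p} (hx : IsIntegral ℤ_[p] x) :
    x ∈ padicIntegers p := by
  let v : Valuation (PadicAlgCl p) ℝ≥0 := Valued.v
  let φ : ℤ_[p] →+* v.integer :=
    (algebraMap ℤ_[p] (PadicAlgCl p)).codRestrict v.integer
      (fun a => nnnorm_algebraMap_padicInt_le_one p a)
  have h1 : IsIntegral v.integer x :=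
    IsIntegral.map_of_comp_eq φ (RingHom.id (PadicAlgCl p)) rfl hx
  exact (Valuation.integer.integers v).isIntegral_iff_v_le_one.mp h1

section Integral

variable {H : Type*} [CommRing H] [Algebra ℤ_[p] H] [Algebra.IsIntegral ℤ_[p] H]

theorem isIntegral_point (f : H →ₐ[ℤ_[p]] PadicAlgCl p) (h : H) : IsIntegral ℤ_[p] (f h) :=
  (Algebra.IsIntegral.isIntegral (R := ℤ_[p]) h).map f

theorem point_mem_padicIntegers (f : H →ₐ[ℤ_[p]] PadicAlgCl p) (h : H) :
    f h ∈ padicIntegers p :=
  mem_padicIntegers_of_isIntegral p (isIntegral_point p f h)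

omit [Algebra.IsIntegral ℤ_[p] H] in
/-- A point fixed by `Gal(ℚ̄_p / E)` has values in `E`. -/
theorem point_mem_of_fixed (E : IntermediateField ℚ_[p] (PadicAlgCl p))
    (f : H →ₐ[ℤ_[p]] PadicAlgCl p)
    (hf : ∀ τ ∈ E.fixingSubgroup, ∀ h, τ (f h) = f h) (h : H) : f h ∈ E := by
  rw [← InfiniteGalois.fixedField_fixingSubgroup E, IntermediateField.mem_fixedField_iff]
  intro τ hτ
  exact hf τ hτ h

/-- The inclusion of the ring of integers of `E` into `ℚ̄_p`, over `ℤ_p`. -/
noncomputable def intRingVal (E : IntermediateField ℚ_[p] (PadicAlgCl p)) :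
    intRing p E →ₐ[ℤ_[p]] PadicAlgCl p :=
  haveI := isScalarTower_mid ℤ_[p] E
  (IsScalarTower.toAlgHom ℤ_[p] E (PadicAlgCl p)).comp (intRing p E).val

theorem intRingVal_apply (E : IntermediateField ℚ_[p] (PadicAlgCl p)) (x : intRing p E) :
    intRingVal p E x = ((x : E) : PadicAlgCl p) := rfl

/-- A point with values in `E` as an `𝒪_E`-point. -/
noncomputable def pointToInt (E : IntermediateField ℚ_[p] (PadicAlgCl p))
    (f : H →ₐ[ℤ_[p]] PadicAlgCl p) (hf : ∀ h, f h ∈ E) : H →ₐ[ℤ_[p]] intRing p E where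
  toFun h := ⟨⟨f h, hf h⟩, (mem_integralClosure_iff_coe ℤ_[p] E _).2 (isIntegral_point p f h)⟩
  map_one' := Subtype.ext (Subtype.ext (map_one f))
  map_mul' x y := Subtype.ext (Subtype.ext (map_mul f x y))
  map_zero' := Subtype.ext (Subtype.ext (map_zero f))
  map_add' x y := Subtype.ext (Subtype.ext (map_add f x y))
  commutes' a := Subtype.ext (Subtype.ext (by
    haveI := isScalarTower_mid ℤ_[p] E
    show f (algebraMap ℤ_[p] H a) = _
    rw [f.commutes, IsScalarTower.algebraMap_apply ℤ_[p] E (PadicAlgCl p)]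
    rfl))

theorem pointToInt_apply (E : IntermediateField ℚ_[p] (PadicAlgCl p))
    (f : H →ₐ[ℤ_[p]] PadicAlgCl p) (hf : ∀ h, f h ∈ E) (h : H) :
    ((pointToInt p E f hf h : E) : PadicAlgCl p) = f h := rfl

/-- `𝒪_E`-points = points fixed by `Gal(ℚ̄_p / E)`. -/
noncomputable def intPointsEquiv (E : IntermediateField ℚ_[p] (PadicAlgCl p)) :
    (H →ₐ[ℤ_[p]] intRing p E) ≃
      {f : H →ₐ[ℤ_[p]] PadicAlgCl p // ∀ τ ∈ E.fixingSubgroup, ∀ h, τ (f h) = f h} where
  toFun y := ⟨(intRingVal p E).comp y, fun τ hτ h =>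
    (IntermediateField.mem_fixingSubgroup_iff E τ).1 hτ _ (y h : E).2⟩
  invFun f := pointToInt p E f.1 (point_mem_of_fixed p E f.1 f.2)
  left_inv y := by
    ext h
    rfl
  right_inv f := by
    apply Subtype.ext
    ext h
    rfl

theorem intPointsEquiv_apply (E : IntermediateField ℚ_[p] (PadicAlgCl p))
    (y : H →ₐ[ℤ_[p]] intRing p E) (h : H) :
    (intPointsEquiv p E y : H →ₐ[ℤ_[p]] PadicAlgCl p) h = ((y h : E) : PadicAlgCl p) := rfl

theorem coe_intPointsEquiv_symm_apply (E : IntermediateField ℚ_[p] (PadicAlgCl p))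
    (f : {f : H →ₐ[ℤ_[p]] PadicAlgCl p // ∀ τ ∈ E.fixingSubgroup, ∀ h, τ (f h) = f h}) (h : H) :
    ((((intPointsEquiv p E).symm f) h : E) : PadicAlgCl p) = f.1 h := rfl

variable (H)

/-- The splitting field `ℚ_p(V)` of the points. -/
noncomputable def pointsField : IntermediateField ℚ_[p] (PadicAlgCl p) :=
  IntermediateField.adjoin ℚ_[p] {x | ∃ (f : H →ₐ[ℤ_[p]] PadicAlgCl p) (h : H), f h = x}

variable {H}

omit [Algebra.IsIntegral ℤ_[p] H] in
theorem point_mem_pointsField (f : H →ₐ[ℤ_[p]] PadicAlgCl p) (h : H) :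
    f h ∈ pointsField p H :=
  IntermediateField.subset_adjoin _ _ ⟨f, h, rfl⟩

variable (H)

omit [Algebra.IsIntegral ℤ_[p] H] in
theorem mem_fixingSubgroup_pointsField_iff (τ : PadicAlgCl p ≃ₐ[ℚ_[p]] PadicAlgCl p) :
    τ ∈ (pointsField p H).fixingSubgroup ↔
      ∀ (f : H →ₐ[ℤ_[p]] PadicAlgCl p) (h : H), τ (f h) = f h := by
  rw [IntermediateField.mem_fixingSubgroup_iff]
  constructor
  · intro hτ f h
    exact hτ _ (point_mem_pointsField p f h)
  · intro hτ y hy
    induction hy using IntermediateField.adjoin_induction with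
    | mem y hy =>
      obtain ⟨f, h, rfl⟩ := hy
      exact hτ f h
    | algebraMap r => exact τ.commutes r
    | add y z _ _ hy hz => rw [map_add, hy, hz]
    | inv y _ hy => rw [map_inv₀, hy]
    | mul y z _ _ hy hz => rw [map_mul, hy, hz]

omit [Algebra.IsIntegral ℤ_[p] H] in
/-- The splitting field is stable under `G_{ℚ_p}`, hence normal. -/
theorem normal_pointsField : Normal ℚ_[p] (pointsField p H) := by
  rw [IntermediateField.normal_iff_forall_map_le']
  intro τ
  rw [pointsField, IntermediateField.adjoin_map, IntermediateField.adjoin_le_iff]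
  rintro _ ⟨_, ⟨f, h, rfl⟩, rfl⟩
  have : τ (f h) = (((τ : PadicAlgCl p →ₐ[ℚ_[p]] PadicAlgCl p).restrictScalars ℤ_[p]).comp f) h :=
    rfl
  show τ (f h) ∈ _
  rw [this]
  exact point_mem_pointsField p _ h

omit [Algebra.IsIntegral ℤ_[p] H] in
theorem isGalois_pointsField : IsGalois ℚ_[p] (pointsField p H) :=
  haveI := normal_pointsField p H
  ⟨⟩

omit [Algebra.IsIntegral ℤ_[p] H] in
theorem finiteDimensional_pointsField [Module.Finite ℤ_[p] H] :
    FiniteDimensional ℚ_[p] (pointsField p H) := by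
  classical
  haveI : Algebra.IsIntegral ℤ_[p] H := Algebra.IsIntegral.of_finite _ _
  obtain ⟨s, hs⟩ := (Module.finite_def (R := ℤ_[p]) (M := H)).1 inferInstance
  -- for each generator an integrality polynomial
  choose P hPm hP0 using fun b : H => Algebra.IsIntegral.isIntegral (R := ℤ_[p]) b
  let T : Set (PadicAlgCl p) := ⋃ b ∈ s, ((P b).map (algebraMap ℤ_[p] ℚ_[p])).rootSet (PadicAlgCl p)
  have hTfin : T.Finite := by
    apply Set.Finite.biUnion s.finite_toSet
    intro b _
    exact Polynomial.rootSet_finite _ _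
  have hmap_ne : ∀ b, (P b).map (algebraMap ℤ_[p] ℚ_[p]) ≠ 0 := fun b =>
    ((hPm b).map _).ne_zero
  have hTint : ∀ x ∈ T, IsIntegral ℚ_[p] x := fun x _ => Algebra.IsIntegral.isIntegral x
  haveI : Finite T := hTfin
  haveI : FiniteDimensional ℚ_[p] (IntermediateField.adjoin ℚ_[p] T) :=
    IntermediateField.finiteDimensional_adjoin hTint
  have hgen : ∀ (f : H →ₐ[ℤ_[p]] PadicAlgCl p), ∀ b ∈ s, f b ∈ T := by
    intro f b hb
    refine Set.mem_biUnion hb ?_
    rw [Polynomial.mem_rootSet_of_ne (hmap_ne b), Polynomial.aeval_map_algebraMap]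
    have := congrArg f (hP0 b)
    rw [← Polynomial.aeval_def, ← Polynomial.aeval_algHom_apply, map_zero] at this
    exact this
  have hle : pointsField p H ≤ IntermediateField.adjoin ℚ_[p] T := by
    rw [pointsField, IntermediateField.adjoin_le_iff]
    rintro _ ⟨f, h, rfl⟩
    have hh : h ∈ Submodule.span ℤ_[p] (s : Set H) := by rw [hs]; trivial
    rw [SetLike.mem_coe]
    induction hh using Submodule.span_induction with
    | mem b hb => exact IntermediateField.subset_adjoin _ _ (hgen f b hb)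
    | zero => rw [map_zero]; exact zero_mem _
    | add x y _ _ hx hy => rw [map_add]; exact add_mem hx hy
    | smul a x _ hx =>
      rw [map_smul, Algebra.smul_def, IsScalarTower.algebraMap_apply ℤ_[p] ℚ_[p] (PadicAlgCl p)]
      exact mul_mem (IntermediateField.algebraMap_mem _ _) hx
  exact finiteDimensional_of_le' hle

end Integral

end Fermat.Agent.TW.FlatBridge
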