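import Mathlib

/-!
# S56 sprint, block FLAT-BRIDGE (FB-Zp): points of a base-changed bialgebra

For a commutative `R`-algebra `S`, an `R`-bialgebra `H` and an `S`-algebra `T`, the adjunction
`Hom_S(S ⊗[R] H, T) = Hom_R(H, T)` (`AlgHom.liftEquiv`) is an isomorphism of convolution monoids.

Mathlib only.  Branch-only work.
-/

set_option autoImplicit false

namespace Fermat.Agent.TW.FlatBridge

open Coalgebra TensorProduct WithConv

section BaseChange

variable (R S : Type*) [CommRing R] [CommRing S] [Algebra R S]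
  (H : Type*) [CommRing H] [Bialgebra R H]
  (T : Type*) [CommRing T] [Algebra R T] [Algebra S T] [IsScalarTower R S T]

variable {R S H T} in
/-- Evaluating `lift F G` on the image of `H ⊗ H`. -/
theorem lift_tensorTensorTensorComm (F G : S ⊗[R] H →ₐ[S] T) (z : H ⊗[R] H) :
    Algebra.TensorProduct.lift F G (fun _ _ => .all ..)
        (AlgebraTensorModule.tensorTensorTensorComm R S R S S S H H ((1 ⊗ₜ[S] 1) ⊗ₜ[R] z)) =
      Algebra.TensorProduct.lift ((AlgHom.liftEquiv R S H T).symm F)
        ((AlgHom.liftEquiv R S H T).symm G) (fun _ _ => .all ..) z := by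
  induction z with
  | zero => simp
  | add x y hx hy => rw [tmul_add, map_add, map_add, map_add, hx, hy]
  | tmul a b =>
    rw [AlgebraTensorModule.tensorTensorTensorComm_tmul, Algebra.TensorProduct.lift_tmul,
      Algebra.TensorProduct.lift_tmul, AlgHom.liftEquiv_symm_apply, AlgHom.liftEquiv_symm_apply]

/-- `Hom_S(S ⊗ H, T) = Hom_R(H, T)` as convolution monoids. -/
noncomputable def baseChangePointsEquiv :
    WithConv (S ⊗[R] H →ₐ[S] T) ≃* WithConv (H →ₐ[R] T) where
  toEquiv := (WithConv.equiv _).trans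
    ((AlgHom.liftEquiv R S H T).symm.trans (WithConv.equiv _).symm)
  map_mul' F G := by
    apply WithConv.ofConv_injective
    ext h
    show (F * G) (1 ⊗ₜ[R] h) = (toConv ((AlgHom.liftEquiv R S H T).symm F.ofConv) *
      toConv ((AlgHom.liftEquiv R S H T).symm G.ofConv)) h
    rw [AlgHom.convMul_apply, AlgHom.convMul_apply, TensorProduct.comul_tmul]
    have h1 : comul (R := S) (1 : S) = (1 : S) ⊗ₜ[S] (1 : S) := by simp
    rw [h1]
    exact lift_tensorTensorTensorComm F.ofConv G.ofConv (comul h)

theorem baseChangePointsEquiv_apply (F : WithConv (S ⊗[R] H →ₐ[S] T)) (h : H) :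
    baseChangePointsEquiv R S H T F h = F (1 ⊗ₜ h) := rfl

theorem baseChangePointsEquiv_symm_apply_tmul (f : WithConv (H →ₐ[R] T)) (s : S) (h : H) :
    (baseChangePointsEquiv R S H T).symm f (s ⊗ₜ h) = s • f h := rfl

end BaseChange

end Fermat.Agent.TW.FlatBridge
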