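import Mathlib
import Fermat.Prelude.Def_GaloisRep_Flat
import Fermat.Prelude.Def_GaloisRep_CompletionBridge
import Fermat.Agent.S55.KrasnerCofinal

/-!
# S56 sprint, block FLAT-BRIDGE (FB2): `ℚ̄`-points = `ℚ̄_p`-points

For an integral (e.g. finite) `ℤ_(p)`-algebra `H`, composition with
`padicEmbedding p : ℚ̄ → ℚ̄_p = PadicAlgCl p` is a bijection from the `ℚ̄`-points of `H` to its
`ℚ̄_p`-points: the values of a `ℚ̄_p`-point are integral over `ℤ_(p)`, hence algebraic over `ℚ`,
hence lie in the image of `ℚ̄`.  For a bialgebra it is an isomorphism of convolution monoids, and it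
is equivariant for `localGaloisToGlobal p : G_{ℚ_p} → G_ℚ`.

Branch-only work.
-/

set_option autoImplicit false

namespace Fermat.Agent.TW.FlatBridge

open GaloisRep Coalgebra WithConv

variable (p : ℕ) [Fact p.Prime]

section Alg

variable (H : Type*) [CommRing H] [Algebra (ratLocalizedAt p) H]

/-- `padicEmbedding p` as a `ℤ_(p)`-algebra homomorphism. -/
noncomputable def padicEmbeddingLoc :
    AlgebraicClosure ℚ →ₐ[ratLocalizedAt p] PadicAlgCl p :=
  (padicEmbedding p).restrictScalars (ratLocalizedAt p)

theorem padicEmbeddingLoc_apply (x : AlgebraicClosure ℚ) :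
    padicEmbeddingLoc p x = padicEmbedding p x := rfl

theorem padicEmbeddingLoc_injective : Function.Injective (padicEmbeddingLoc p) :=
  (padicEmbedding p).toRingHom.injective

/-- `f ↦ padicEmbedding ∘ f`. -/
noncomputable def pointsMap (f : H →ₐ[ratLocalizedAt p] AlgebraicClosure ℚ) :
    H →ₐ[ratLocalizedAt p] PadicAlgCl p :=
  ((padicEmbedding p).restrictScalars (ratLocalizedAt p)).comp f

theorem pointsMap_apply (f : H →ₐ[ratLocalizedAt p] AlgebraicClosure ℚ) (h : H) :
    pointsMap p H f h = padicEmbedding p (f h) := rfl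

theorem pointsMap_injective : Function.Injective (pointsMap p H) := by
  intro f g hfg
  ext h
  apply (padicEmbedding p).toRingHom.injective
  exact DFunLike.congr_fun hfg h

/-- An element of `ℚ̄_p` integral over `ℤ_(p)` lies in the image of `ℚ̄`. -/
theorem exists_padicEmbedding_eq_of_isIntegral {x : PadicAlgCl p}
    (hx : IsIntegral (ratLocalizedAt p) x) : ∃ b : AlgebraicClosure ℚ, padicEmbedding p b = x := by
  have hx' : IsIntegral ℚ x := hx.tower_top
  exact Fermat.Agent.S55.exists_padicEmbedding_eq_of_aeval_eq_zero p (minpoly.ne_zero hx')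
    (minpoly.aeval ℚ x)

theorem pointsMap_surjective [Algebra.IsIntegral (ratLocalizedAt p) H] :
    Function.Surjective (pointsMap p H) := by
  intro g
  have hmem : ∀ h : H, g h ∈ (padicEmbeddingLoc p).range := by
    intro h
    obtain ⟨b, hb⟩ := exists_padicEmbedding_eq_of_isIntegral p
      ((Algebra.IsIntegral.isIntegral (R := ratLocalizedAt p) h).map g)
    exact ⟨b, hb⟩
  let e := AlgEquiv.ofInjective (padicEmbeddingLoc p) (padicEmbeddingLoc_injective p)
  refine ⟨(e.symm : (padicEmbeddingLoc p).range →ₐ[ratLocalizedAt p] AlgebraicClosure ℚ).comp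
    (g.codRestrict (padicEmbeddingLoc p).range hmem), ?_⟩
  ext h
  rw [pointsMap_apply]
  have : padicEmbeddingLoc p (e.symm ⟨g h, hmem h⟩) = g h := by
    have := e.apply_symm_apply ⟨g h, hmem h⟩
    exact congrArg Subtype.val this
  exact this

theorem pointsMap_bijective [Algebra.IsIntegral (ratLocalizedAt p) H] :
    Function.Bijective (pointsMap p H) :=
  ⟨pointsMap_injective p H, pointsMap_surjective p H⟩

end Alg

section Bialg

variable (H : Type*) [CommRing H] [Bialgebra (ratLocalizedAt p) H]
  [Algebra.IsIntegral (ratLocalizedAt p) H]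

/-- The convolution monoids of `ℚ̄`-points and of `ℚ̄_p`-points are isomorphic. -/
noncomputable def pointsEquiv :
    WithConv (H →ₐ[ratLocalizedAt p] AlgebraicClosure ℚ) ≃*
      WithConv (H →ₐ[ratLocalizedAt p] PadicAlgCl p) where
  toEquiv := (WithConv.equiv _).trans
    ((Equiv.ofBijective _ (pointsMap_bijective p H)).trans (WithConv.equiv _).symm)
  map_mul' f g := by
    apply WithConv.ofConv_injective
    exact AlgHom.comp_convMul_distrib (padicEmbeddingLoc p) f g

theorem pointsEquiv_apply (f : WithConv (H →ₐ[ratLocalizedAt p] AlgebraicClosure ℚ)) (h : H) :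
    pointsEquiv p H f h = padicEmbedding p (f h) := rfl

/-- Equivariance: `τ ∘ ι_* f = ι_* (r_p(τ) ∘ f)`. -/
theorem pointsEquiv_galois (τ : PadicAlgCl p ≃ₐ[ℚ_[p]] PadicAlgCl p)
    (f g : WithConv (H →ₐ[ratLocalizedAt p] AlgebraicClosure ℚ)) :
    (∀ h : H, pointsEquiv p H g h = τ (pointsEquiv p H f h)) ↔
      ∀ h : H, g h = localGaloisToGlobal p τ (f h) := by
  refine forall_congr' fun h => ?_
  rw [pointsEquiv_apply, pointsEquiv_apply, ← padicEmbedding_localGaloisToGlobal]
  exact (padicEmbedding p).toRingHom.injective.eq_iff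

end Bialg

end Fermat.Agent.TW.FlatBridge
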