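import Mathlib
import Fermat.Prelude.Def_GaloisRep_Flat

/-!
# S56 sprint, block FLAT-BRIDGE (FB1): scalars `ℤ_(p) → ℤ_p`

The Prelude's `GaloisRepAdic.IsFlatAt p` speaks about Hopf algebras over
`GaloisRep.ratLocalizedAt p = ℤ_(p)`, a subring of `ℚ`.  Here we record the ring homomorphism
`ℤ_(p) → ℤ_p`, the resulting (scoped) algebra structure and the scalar towers towards `ℚ_p` and
`ℚ̄_p = PadicAlgCl p`.

Branch-only work.
-/

set_option autoImplicit false

namespace Fermat.Agent.TW.FlatBridge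

open GaloisRep

variable (p : ℕ) [hp : Fact p.Prime]

theorem norm_ratCast_le_one_of_mem {x : ℚ} (hx : x ∈ ratLocalizedAt p) :
    ‖(x : ℚ_[p])‖ ≤ 1 := by
  apply Padic.norm_rat_le_one
  have h : x.den.Coprime p := hx
  exact fun hdvd => hp.out.one_lt.ne' (Nat.eq_one_of_dvd_coprimes h hdvd dvd_rfl)

/-- The underlying function of `ℤ_(p) → ℤ_p`. -/
noncomputable def ratLocToPadicIntFun (x : ratLocalizedAt p) : ℤ_[p] :=
  ⟨((x : ℚ) : ℚ_[p]), norm_ratCast_le_one_of_mem p x.2⟩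

theorem coe_ratLocToPadicIntFun (x : ratLocalizedAt p) :
    ((ratLocToPadicIntFun p x : ℤ_[p]) : ℚ_[p]) = ((x : ℚ) : ℚ_[p]) := rfl

/-- `ℤ_(p) → ℤ_p`. -/
noncomputable def ratLocToPadicInt : ratLocalizedAt p →+* ℤ_[p] where
  toFun := ratLocToPadicIntFun p
  map_one' := by
    apply PadicInt.ext
    rw [coe_ratLocToPadicIntFun, PadicInt.coe_one]
    simp
  map_mul' x y := by
    apply PadicInt.ext
    rw [PadicInt.coe_mul, coe_ratLocToPadicIntFun, coe_ratLocToPadicIntFun,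
      coe_ratLocToPadicIntFun]
    simp
  map_zero' := by
    apply PadicInt.ext
    rw [coe_ratLocToPadicIntFun, PadicInt.coe_zero]
    simp
  map_add' x y := by
    apply PadicInt.ext
    rw [PadicInt.coe_add, coe_ratLocToPadicIntFun, coe_ratLocToPadicIntFun,
      coe_ratLocToPadicIntFun]
    simp

theorem coe_ratLocToPadicInt (x : ratLocalizedAt p) :
    ((ratLocToPadicInt p x : ℤ_[p]) : ℚ_[p]) = ((x : ℚ) : ℚ_[p]) := rfl

/-- The `ℤ_(p)`-algebra `ℤ_p` (scoped). -/
noncomputable scoped instance algebraPadicInt : Algebra (ratLocalizedAt p) ℤ_[p] :=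
  (ratLocToPadicInt p).toAlgebra

theorem algebraMap_padicInt_apply (x : ratLocalizedAt p) :
    algebraMap (ratLocalizedAt p) ℤ_[p] x = ratLocToPadicInt p x := rfl

theorem algebraMap_ratLoc_padic (x : ratLocalizedAt p) :
    algebraMap (ratLocalizedAt p) ℚ_[p] x = ((x : ℚ) : ℚ_[p]) := by
  rw [show algebraMap (ratLocalizedAt p) ℚ_[p] x = algebraMap ℚ ℚ_[p] (x : ℚ) from rfl,
    eq_ratCast]

scoped instance towerPadic : IsScalarTower (ratLocalizedAt p) ℤ_[p] ℚ_[p] :=
  IsScalarTower.of_algebraMap_eq fun x => by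
    rw [algebraMap_ratLoc_padic, algebraMap_padicInt_apply]
    rfl

scoped instance towerPadicAlgCl : IsScalarTower (ratLocalizedAt p) ℤ_[p] (PadicAlgCl p) :=
  IsScalarTower.of_algebraMap_eq fun x => by
    rw [IsScalarTower.algebraMap_apply (ratLocalizedAt p) ℚ_[p] (PadicAlgCl p),
      IsScalarTower.algebraMap_apply ℤ_[p] ℚ_[p] (PadicAlgCl p),
      IsScalarTower.algebraMap_apply (ratLocalizedAt p) ℤ_[p] ℚ_[p]]

end Fermat.Agent.TW.FlatBridge
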