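import Mathlib
import Fermat.Agent.TW.FlatBridge.Scalars
import Fermat.Agent.TW.FlatBridge.Points
import Fermat.Agent.TW.FlatBridge.BaseChange

/-!
# S56 sprint, block FLAT-BRIDGE (FB4): the local datum attached to the Prelude's `IsFlatAt`

`IsLocalFlat p M act`: the finite abelian group `M` with the operators `act τ`
(`τ ∈ G_{ℚ_p} = Gal(ℚ̄_p/ℚ_p)`) is the group of `ℚ̄_p`-points of a finite free commutative
cocommutative Hopf algebra over `ℤ_p`, Galois-equivariantly.

Main theorem `isLocalFlat_of_isFlatAt`: the Prelude's `GaloisRepAdic.IsFlatAt p` implies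
`IsLocalFlat p (V / I V) (levelAction I ∘ localGaloisToGlobal p)` for every ideal `I` of finite
index.

Branch-only work.
-/

set_option autoImplicit false
set_option linter.style.haveILetI false

namespace Fermat.Agent.TW.FlatBridge

open GaloisRep Coalgebra TensorProduct WithConv

variable (p : ℕ) [Fact p.Prime]

/-- A finite abelian group `M` with an action of `G_{ℚ_p}` is *flat* if it is the group of
`ℚ̄_p`-points of a finite free commutative cocommutative Hopf algebra over `ℤ_p`. -/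
def IsLocalFlat (M : Type*) [AddCommGroup M]
    (act : (PadicAlgCl p ≃ₐ[ℚ_[p]] PadicAlgCl p) → M → M) : Prop :=
  ∃ (H : Type) (_ : CommRing H) (_ : HopfAlgebra ℤ_[p] H),
    Module.Finite ℤ_[p] H ∧ Module.Free ℤ_[p] H ∧ Coalgebra.IsCocomm ℤ_[p] H ∧
    ∃ e : WithConv (H →ₐ[ℤ_[p]] PadicAlgCl p) ≃ M,
      (∀ f g, e (f * g) = e f + e g) ∧
      ∀ (τ : PadicAlgCl p ≃ₐ[ℚ_[p]] PadicAlgCl p) (f g : WithConv (H →ₐ[ℤ_[p]] PadicAlgCl p)),
        (∀ h : H, g h = τ (f h)) → e g = act τ (e f)

variable {A : Type} [CommRing A] [IsLocalRing A]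

/-- Local form of the Prelude's `IsFlatAt`, still over `ℤ_(p)`. -/
theorem isFlatAt_local (ρ : GaloisRepAdic A) (hρ : ρ.IsFlatAt p) (I : Ideal A)
    (hI : Finite (A ⧸ I)) :
    ∃ (H : Type) (_ : CommRing H) (_ : HopfAlgebra (ratLocalizedAt p) H),
      Module.Finite (ratLocalizedAt p) H ∧ Module.Flat (ratLocalizedAt p) H ∧
      Coalgebra.IsCocomm (ratLocalizedAt p) H ∧
      ∃ e : WithConv (H →ₐ[ratLocalizedAt p] PadicAlgCl p) ≃
          (ρ.V ⧸ (I • (⊤ : Submodule A ρ.V))),
        (∀ f g, e (f * g) = e f + e g) ∧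
        ∀ (τ : PadicAlgCl p ≃ₐ[ℚ_[p]] PadicAlgCl p)
          (f g : WithConv (H →ₐ[ratLocalizedAt p] PadicAlgCl p)),
          (∀ h : H, g h = τ (f h)) →
            e g = ρ.levelAction I (localGaloisToGlobal p τ) (e f) := by
  obtain ⟨H, _, _, hfin, hflat, hcc, e, hadd, hact⟩ := hρ.2 I hI
  haveI : Algebra.IsIntegral (ratLocalizedAt p) H := Algebra.IsIntegral.of_finite _ _
  refine ⟨H, inferInstance, inferInstance, hfin, hflat, hcc,
    (pointsEquiv p H).symm.toEquiv.trans e, ?_, ?_⟩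
  · intro f g
    show e ((pointsEquiv p H).symm (f * g)) = e ((pointsEquiv p H).symm f) +
      e ((pointsEquiv p H).symm g)
    rw [map_mul, hadd]
  · intro τ f g hfg
    show e ((pointsEquiv p H).symm g) = ρ.levelAction I (localGaloisToGlobal p τ)
      (e ((pointsEquiv p H).symm f))
    apply hact
    rw [← pointsEquiv_galois]
    intro h
    rw [MulEquiv.apply_symm_apply, MulEquiv.apply_symm_apply]
    exact hfg h

/-- **FLAT-BRIDGE**: the Prelude's `IsFlatAt p` gives, at every finite level, a finite free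
cocommutative Hopf algebra over `ℤ_p` whose `ℚ̄_p`-points are `V / I V` with its `G_{ℚ_p}`-action
through `localGaloisToGlobal p`. -/
theorem isLocalFlat_of_isFlatAt (ρ : GaloisRepAdic A) (hρ : ρ.IsFlatAt p) (I : Ideal A)
    (hI : Finite (A ⧸ I)) :
    IsLocalFlat p (ρ.V ⧸ (I • (⊤ : Submodule A ρ.V)))
      (fun τ => ρ.levelAction I (localGaloisToGlobal p τ)) := by
  obtain ⟨H, _, _, hfin, hflat, hcc, e, hadd, hact⟩ := isFlatAt_local p ρ hρ I hI
  haveI : Module.Finite ℤ_[p] (ℤ_[p] ⊗[ratLocalizedAt p] H) := inferInstance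
  haveI : Module.Flat ℤ_[p] (ℤ_[p] ⊗[ratLocalizedAt p] H) := inferInstance
  refine ⟨ℤ_[p] ⊗[ratLocalizedAt p] H, inferInstance, inferInstance, inferInstance,
    Module.free_of_flat_of_isLocalRing, inferInstance,
    (baseChangePointsEquiv (ratLocalizedAt p) ℤ_[p] H (PadicAlgCl p)).toEquiv.trans e, ?_, ?_⟩
  · intro f g
    show e (baseChangePointsEquiv (ratLocalizedAt p) ℤ_[p] H (PadicAlgCl p) (f * g)) = _
    rw [map_mul, hadd]
    rfl
  · intro τ f g hfg
    show e (baseChangePointsEquiv (ratLocalizedAt p) ℤ_[p] H (PadicAlgCl p) g) =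
      ρ.levelAction I (localGaloisToGlobal p τ)
        (e (baseChangePointsEquiv (ratLocalizedAt p) ℤ_[p] H (PadicAlgCl p) f))
    apply hact
    intro h
    rw [baseChangePointsEquiv_apply, baseChangePointsEquiv_apply]
    exact hfg _

end Fermat.Agent.TW.FlatBridge
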