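import Mathlib
import Fermat.Agent.TW.FlatBridge.Local
import Fermat.Agent.TW.FlatBridge.Integral
import Fermat.Agent.TW.Font.Pm

/-!
# S56 sprint, block FLAT-BRIDGE: Fontaine's `(P_m)` for the splitting field of a flat module

Glue between `IsLocalFlat` (the local datum extracted from the Prelude's `IsFlatAt`) and helper25's
`Font.Pm.fontainePAbove_of_points` (vendored byte-identically from origin/helper25): if `M` is flat
and killed by `p`, then the finite Galois extension `L/ℚ_p` cut out by the kernel of the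
`G_{ℚ_p}`-action on `M` satisfies Fontaine's property `(P_m)` for every `m > p/(p-1)`.

Branch-only work.
-/

set_option autoImplicit false
set_option linter.style.haveILetI false
set_option linter.unusedSectionVars false

namespace Fermat.Agent.TW.FlatBridge

open GaloisRep Coalgebra WithConv IsLocalRing Fermat.Agent.TW.Ram

variable (p : ℕ) [hp : Fact p.Prime]

theorem natCast_mem_maximalIdeal_padicInt : ((p : ℕ) : ℤ_[p]) ∈ maximalIdeal ℤ_[p] := by
  rw [mem_maximalIdeal, mem_nonunits_iff]
  exact PadicInt.p_nonunit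

section Points

variable (B : Type) [CommRing B] [HopfAlgebra ℤ_[p] B] [IsCocomm ℤ_[p] B]
  [Module.Finite ℤ_[p] B] [Module.Projective ℤ_[p] B]

/-- **(P_m) for the field of points.**  `B` a finite projective commutative cocommutative Hopf
algebra over `ℤ_p` all of whose `ℚ̄_p`-points are killed by `p`: the field generated by the
coordinates of the points satisfies `(P_m)` for all `m > p/(p-1)`. -/
theorem fontainePAbove_pointsField
    (htors : ∀ y : WithConv (B →ₐ[ℤ_[p]] PadicAlgCl p), y ^ p = 1) :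
    FontainePAbove ℤ_[p] ℚ_[p] (pointsField p B) ((p : ℕ) : ℤ_[p]) p (p - 1) := by
  haveI := finiteDimensional_pointsField p B
  refine Fermat.Agent.TW.Font.Pm.fontainePAbove_of_points ℤ_[p] ℚ_[p] (pointsField p B) B
    (PadicAlgCl p) hp.out (natCast_mem_maximalIdeal_padicInt p) htors (pointsField p B).val ?_ ?_
  · intro y b
    exact ⟨⟨y b, point_mem_pointsField p y b⟩, rfl⟩
  · rw [IntermediateField.fieldRange_val, pointsField]
    apply IntermediateField.adjoin.mono
    rintro _ ⟨f, h, rfl⟩
    exact ⟨f, h, rfl⟩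

end Points

/-- **FLAT ⇒ (P_m).**  If the `G_{ℚ_p}`-module `M` is flat (`IsLocalFlat`) and killed by `p`, the
finite Galois extension `L/ℚ_p` cut out by the kernel of the action satisfies Fontaine's `(P_m)` for
every `m > p/(p-1)`. -/
theorem exists_fontainePAbove_of_isLocalFlat {M : Type*} [AddCommGroup M]
    {act : (PadicAlgCl p ≃ₐ[ℚ_[p]] PadicAlgCl p) → M → M} (h : IsLocalFlat p M act)
    (hpM : ∀ m : M, p • m = 0) :
    ∃ (L : IntermediateField ℚ_[p] (PadicAlgCl p)) (_ : FiniteDimensional ℚ_[p] L),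
      IsGalois ℚ_[p] L ∧ (∀ τ, τ ∈ L.fixingSubgroup ↔ ∀ m, act τ m = m) ∧
      FontainePAbove ℤ_[p] ℚ_[p] L ((p : ℕ) : ℤ_[p]) p (p - 1) := by
  obtain ⟨H, _, _, hfin, hfree, hcc, e, hadd, hact⟩ := h
  have he1 : e 1 = 0 := by
    have := hadd 1 1
    rw [mul_one] at this
    exact left_eq_add.mp this
  have hpow : ∀ (y : WithConv (H →ₐ[ℤ_[p]] PadicAlgCl p)) (n : ℕ), e (y ^ n) = n • e y := by
    intro y n
    induction n with
    | zero => rw [pow_zero, zero_smul, he1]
    | succ n ih => rw [pow_succ, hadd, ih, succ_nsmul]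
  have htors : ∀ y : WithConv (H →ₐ[ℤ_[p]] PadicAlgCl p), y ^ p = 1 := by
    intro y
    apply e.injective
    rw [hpow, hpM, he1]
  refine ⟨pointsField p H, finiteDimensional_pointsField p H, isGalois_pointsField p H, ?_,
    fontainePAbove_pointsField p H htors⟩
  intro τ
  rw [mem_fixingSubgroup_pointsField_iff]
  constructor
  · intro hτ m
    obtain ⟨f, rfl⟩ := e.surjective m
    exact (hact τ f f fun x => (hτ f.ofConv x).symm).symm
  · intro hτ f x
    set g : WithConv (H →ₐ[ℤ_[p]] PadicAlgCl p) :=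
      toConv ((((τ : PadicAlgCl p →ₐ[ℚ_[p]] PadicAlgCl p).restrictScalars ℤ_[p]).comp f)) with hg
    have h1 : e g = act τ (e (toConv f)) := hact τ (toConv f) g fun _ => rfl
    rw [hτ] at h1
    have h2 : g = toConv f := e.injective h1
    have h3 := congrArg (fun y : WithConv (H →ₐ[ℤ_[p]] PadicAlgCl p) => y.ofConv x) h2
    exact h3

variable {A : Type} [CommRing A] [IsLocalRing A]

/-- **Prelude form.**  `ρ` flat at `p`, `I` an ideal of finite index containing `p`: the splitting
field of `V / I V` over `ℚ_p` satisfies `(P_m)` for every `m > p/(p-1)`. -/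
theorem exists_fontainePAbove_of_isFlatAt (ρ : GaloisRepAdic A) (hρ : ρ.IsFlatAt p) (I : Ideal A)
    (hI : Finite (A ⧸ I)) (hpI : (p : A) ∈ I) :
    ∃ (L : IntermediateField ℚ_[p] (PadicAlgCl p)) (_ : FiniteDimensional ℚ_[p] L),
      IsGalois ℚ_[p] L ∧
      (∀ τ, τ ∈ L.fixingSubgroup ↔
        ∀ m : ρ.V ⧸ (I • (⊤ : Submodule A ρ.V)),
          ρ.levelAction I (localGaloisToGlobal p τ) m = m) ∧
      FontainePAbove ℤ_[p] ℚ_[p] L ((p : ℕ) : ℤ_[p]) p (p - 1) := by
  refine exists_fontainePAbove_of_isLocalFlat p (isLocalFlat_of_isFlatAt p ρ hρ I hI) ?_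
  intro m
  obtain ⟨v, rfl⟩ := Submodule.Quotient.mk_surjective _ m
  rw [← Submodule.Quotient.mk_smul, Submodule.Quotient.mk_eq_zero]
  have : p • v = (p : A) • v := by
    rw [Nat.cast_smul_eq_nsmul]
  rw [this]
  exact Submodule.smul_mem_smul hpI Submodule.mem_top

end Fermat.Agent.TW.FlatBridge
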