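import Mathlib
import Fermat.Agent.TW.FlatBridge.Fontaine
import Fermat.Agent.S53.MatModel

/-!
# S56 sprint, block FLAT-BRIDGE: `(P_m)` for the splitting field of a flat representation over a
finite ring killed by `p` (e.g. a `k[ε]`-deformation), in `GaloisRepAdic` and in `MatRep` form

`I = ⊥` in `exists_fontainePAbove_of_isFlatAt`: the kernel of the action on `V / ⊥ V` is the kernel
of the representation itself.

Branch-only work.
-/

set_option autoImplicit false
set_option linter.style.haveILetI false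
set_option linter.unusedSectionVars false

namespace Fermat.Agent.TW.FlatBridge

open GaloisRep Fermat.Agent.TW.Ram Fermat.Agent.S53

variable (p : ℕ) [hp : Fact p.Prime]

variable {A : Type} [CommRing A] [IsLocalRing A]

/-- The level-`⊥` action is trivial iff the representation is. -/
theorem levelAction_bot_eq_iff (ρ : GaloisRepAdic A)
    (σ : AlgebraicClosure ℚ ≃ₐ[ℚ] AlgebraicClosure ℚ) :
    (∀ m : ρ.V ⧸ ((⊥ : Ideal A) • (⊤ : Submodule A ρ.V)), ρ.levelAction ⊥ σ m = m) ↔
      ρ.ρ σ = 1 := by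
  have hbot : ((⊥ : Ideal A) • (⊤ : Submodule A ρ.V)) = ⊥ := Submodule.bot_smul _
  constructor
  · intro h
    apply LinearMap.ext
    intro v
    have h1 := h (Submodule.Quotient.mk v)
    have h2 : ρ.levelAction ⊥ σ (Submodule.Quotient.mk v) = Submodule.Quotient.mk (ρ.ρ σ v) := rfl
    rw [h2, Submodule.Quotient.eq, hbot, Submodule.mem_bot, sub_eq_zero] at h1
    exact h1
  · intro h m
    obtain ⟨v, rfl⟩ := Submodule.Quotient.mk_surjective _ m
    have h2 : ρ.levelAction ⊥ σ (Submodule.Quotient.mk v) = Submodule.Quotient.mk (ρ.ρ σ v) := rfl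
    rw [h2, h]
    rfl

/-- **`GaloisRepAdic` form.**  `A` finite with `p = 0`, `ρ` flat at `p`: the finite Galois
extension `L/ℚ_p` cut out by `ker (ρ ∘ localGaloisToGlobal p)` satisfies `(P_m)`, `m > p/(p-1)`. -/
theorem exists_fontainePAbove_of_isFlatAt_finite [Finite A] (ρ : GaloisRepAdic A)
    (hρ : ρ.IsFlatAt p) (hpA : (p : A) = 0) :
    ∃ (L : IntermediateField ℚ_[p] (PadicAlgCl p)) (_ : FiniteDimensional ℚ_[p] L),
      IsGalois ℚ_[p] L ∧
      (∀ τ, τ ∈ L.fixingSubgroup ↔ ρ.ρ (localGaloisToGlobal p τ) = 1) ∧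
      FontainePAbove ℤ_[p] ℚ_[p] L ((p : ℕ) : ℤ_[p]) p (p - 1) := by
  obtain ⟨L, hfd, hgal, hfix, hP⟩ := exists_fontainePAbove_of_isFlatAt p ρ hρ ⊥
    (Finite.of_surjective _ (Ideal.Quotient.mk_surjective (I := (⊥ : Ideal A))))
    (by rw [hpA]; exact Submodule.zero_mem _)
  exact ⟨L, hfd, hgal, fun τ => (hfix τ).trans (levelAction_bot_eq_iff ρ _), hP⟩

/-- **`MatRep` form** (the vocabulary of `S53/MatModel` and of the SEL block). -/
theorem exists_fontainePAbove_of_matRep [Finite A] (r : MatRep A)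
    (hr : r.toAdic.IsFlatAt p) (hpA : (p : A) = 0) :
    ∃ (L : IntermediateField ℚ_[p] (PadicAlgCl p)) (_ : FiniteDimensional ℚ_[p] L),
      IsGalois ℚ_[p] L ∧
      (∀ τ, τ ∈ L.fixingSubgroup ↔ r (localGaloisToGlobal p τ) = 1) ∧
      FontainePAbove ℤ_[p] ℚ_[p] L ((p : ℕ) : ℤ_[p]) p (p - 1) := by
  obtain ⟨L, hfd, hgal, hfix, hP⟩ := exists_fontainePAbove_of_isFlatAt_finite p r.toAdic hr hpA
  refine ⟨L, hfd, hgal, fun τ => (hfix τ).trans ?_, hP⟩
  constructor
  · intro h
    have h1 : Matrix.toLinAlgEquiv' (R := A) (n := Fin 2) (r (localGaloisToGlobal p τ)) =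
        Matrix.toLinAlgEquiv' (R := A) (n := Fin 2) 1 := by
      rw [map_one]
      exact h
    exact (Matrix.toLinAlgEquiv' (R := A) (n := Fin 2)).injective h1
  · intro h
    show Matrix.toLinAlgEquiv' (R := A) (n := Fin 2) (r (localGaloisToGlobal p τ)) = 1
    rw [h, map_one]

end Fermat.Agent.TW.FlatBridge
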